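import Fermat.Agent.S55.PT.FiniteIndexH424
import Fermat.Agent.S55.PT.LevelsNormal
import Fermat.Agent.S55.PT.Setup
import Fermat.Agent.S55.Bridge.Cyclo

/-!
# S55: the local level systems and `μ_p` (leaves KL-A0, KL-A5 of route C′)        (helper587)

Stated with all Spec-definitions UNFOLDED, in terms of the PT-layer vocabulary on main only
(`PT.localLevels`, `PT.muLoc`, `LevelSys.NormalCofinal/FiniteIndex/IsUSmooth`), so that the file
does not depend on the location of the KL interface file.

* `localLevels_normalCofinal`, `localNormalCofinal : PT.LocalNormalCofinalSpec` (D-F7b);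
* `localLevelsSpec` : `∀ q, (localLevels q).NormalCofinal ∧ (localLevels q).FiniteIndex`
  (this is, verbatim, the body of `LocalLevelsSpec`, KL-A0);
* `mu_isUSmooth_pullback`, `muLoc_isUSmooth`, `muLoc_finrank`;
* `localMuSpec` : `∀ p q, finrank (muLoc p q) = 1 ∧ (localLevels q).IsUSmooth (muLoc p q)`
  (verbatim the body of `LocalMuSpec`, KL-A5).
-/

set_option autoImplicit false
set_option linter.style.haveILetI false

noncomputable section

namespace Fermat.Agent.S55.H587

open groupCohomology ExtCitation Fermat.Agent.S55.PT Fermat.Agent.S55.Bridge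

/-! ## KL-A0 -/

/-- Normal levels are cofinal among the levels pulled back along any `r : G → G_ℚ`. -/
theorem pullbackLevels_normalCofinal {G : Type} [Group G] (r : G →* GQ) :
    (pullbackLevels r).NormalCofinal :=
  pullbackLevels_normal_cofinal724 r

/-- Normal levels are cofinal among the local levels. -/
theorem localLevels_normalCofinal (q : Nat.Primes) : (localLevels q).NormalCofinal :=
  pullbackLevels_normalCofinal (rl q)

/-- **D-F7b.** -/
theorem localNormalCofinal : LocalNormalCofinalSpec :=
  fun q => localLevels_normalCofinal q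

/-- **KL-A0** (body of `LocalLevelsSpec`). -/
theorem localLevelsSpec :
    ∀ q : Nat.Primes, (localLevels q).NormalCofinal ∧ (localLevels q).FiniteIndex :=
  fun q => ⟨localLevels_normalCofinal q, Fermat.Agent.S55.PT.H424.localFiniteIndex q⟩

/-! ## KL-A5 -/

variable (p : ℕ) [Fact p.Prime]

/-- The field `ℚ(μ_p) ⊂ ℚ̄`. -/
def cycloField : IntermediateField ℚ (AlgebraicClosure ℚ) :=
  IntermediateField.adjoin ℚ
    (Set.range fun t : rootsOfUnity p (AlgebraicClosure ℚ) =>
      (((t : (AlgebraicClosure ℚ)ˣ) : AlgebraicClosure ℚ)))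

instance cycloField_finiteDimensional : FiniteDimensional ℚ (cycloField p) := by
  haveI : NeZero p := ⟨(Fact.out : p.Prime).ne_zero⟩
  haveI : Finite (rootsOfUnity p (AlgebraicClosure ℚ)) := inferInstance
  refine IntermediateField.finiteDimensional_adjoin (K := ℚ)
    (S := Set.range fun t : rootsOfUnity p (AlgebraicClosure ℚ) =>
      (((t : (AlgebraicClosure ℚ)ˣ) : AlgebraicClosure ℚ))) ?_
  intro x _
  haveI : Algebra.IsAlgebraic ℚ (AlgebraicClosure ℚ) := AlgebraicClosure.isAlgebraic ℚ
  exact (Algebra.IsAlgebraic.isAlgebraic (R := ℚ) x).isIntegral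

/-- An automorphism fixing `ℚ(μ_p)` has trivial cyclotomic character. -/
theorem cycloChar_eq_one_of_mem_fixingSubgroup (σ : GQ)
    (hσ : σ ∈ (cycloField p).fixingSubgroup) : cycloChar p σ = 1 := by
  apply cycloChar_eq_one_of_fixes
  intro t ht
  have hmem : ((t : AlgebraicClosure ℚ)) ∈ cycloField p :=
    IntermediateField.subset_adjoin ℚ _ ⟨⟨t, ht⟩, rfl⟩
  exact hσ ⟨_, hmem⟩

/-- `μ_p`, pulled back along any `r : G → G_ℚ`, is uniformly smooth for the pulled-back levels. -/
theorem mu_isUSmooth_pullback {G : Type} [Group G] (r : G →* GQ) :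
    (pullbackLevels r).IsUSmooth (Rep.res r (mu p)) := by
  refine ⟨_, ⟨cycloField p, inferInstance, rfl⟩, ?_⟩
  intro s hs a
  have h1 : cycloChar p (r s) = 1 := cycloChar_eq_one_of_mem_fixingSubgroup p (r s) hs
  show ((cycloChar p (r s) : (ZMod p)ˣ) : ZMod p) • (a : ZMod p) = a
  rw [h1]
  simp

/-- `μ_p` is uniformly smooth for the local levels. -/
theorem muLoc_isUSmooth (q : Nat.Primes) : (localLevels q).IsUSmooth (muLoc p q) :=
  mu_isUSmooth_pullback p (rl q)

/-- `μ_p` is one-dimensional. -/
theorem muLoc_finrank (q : Nat.Primes) : Module.finrank (ZMod p) (muLoc p q) = 1 :=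
  Module.finrank_self (ZMod p)

/-- `μ_p` is one-dimensional (global version). -/
theorem mu_finrank : Module.finrank (ZMod p) (mu p) = 1 :=
  Module.finrank_self (ZMod p)

/-- **KL-A5** (body of `LocalMuSpec`). -/
theorem localMuSpec :
    ∀ (p : ℕ) [Fact p.Prime] (q : Nat.Primes),
      Module.finrank (ZMod p) (muLoc p q) = 1 ∧ (localLevels q).IsUSmooth (muLoc p q) :=
  fun p _ q => ⟨muLoc_finrank p q, muLoc_isUSmooth p q⟩

end Fermat.Agent.S55.H587

end
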